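import Fermat.Agent.LS27.Main

/-!
# S39/S40, block [LS]: the dichotomy at a prime of good reduction
-/

set_option autoImplicit false
set_option linter.style.haveILetI false

namespace Fermat.Agent.LS27

open WeierstrassCurve WeierstrassCurve.Affine
open Fermat.Agent.ERep Fermat.Agent.Tate Fermat.Agent.RTE
open Fermat.Agent.Flat Fermat.Agent.Flat.Loc
open Matrix

section Good

variable (E : WeierstrassCurve ℚ) [E.IsElliptic] (p : ℕ) [hp : Fact p.Prime]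
  {W : WeierstrassCurve ℤ} (hWE : W.IsIntegralModelOf E)

/-- If the flat local representation is not connected, inertia at the standard place acts trivially
on a nonzero quotient. -/
theorem exists_line (hp2 : p ≠ 2) :
    haveI := setting_padic (p := p) hp2
    ∀ D : Ord p (PadicAlgCl p) (inert p) (fun s => vAct (locE E p) s.1), D.conn ≠ ⊤ →
    ∃ N : AddSubgroup (Submodule.torsionBy ℤ (E⁄Qb).Point (p : ℤ)), N ≠ ⊤ ∧
      ∀ s ∈ (padicPlace p).inertiaSubgroupIn ℚ, ∀ v, s • v - v ∈ N := by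
  haveI := setting_padic (p := p) hp2
  intro D hne
  obtain ⟨Φ, hΦ⟩ := exists_tors_equiv E p
  refine ⟨D.conn.map Φ.toAddMonoidHom, fun htop => hne ?_, fun s hs v => ?_⟩
  · rw [eq_top_iff]
    intro x _
    have h1 : Φ x ∈ D.conn.map Φ.toAddMonoidHom := by rw [htop]; trivial
    obtain ⟨y, hy, hxy⟩ := h1
    have h2 : y = x := Φ.injective hxy
    rw [← h2]
    exact hy
  · obtain ⟨γ, hγ, rfl⟩ := SL1.exists_inert_lift hs
    refine ⟨modE E p (localGaloisToGlobal p γ) *ᵥ Φ.symm v - Φ.symm v,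
      D.smul_sub_mem_conn ⟨γ, hγ⟩ (Φ.symm v), ?_⟩
    change Φ (modE E p (localGaloisToGlobal p γ) *ᵥ Φ.symm v - Φ.symm v) = _
    rw [map_sub, hΦ, Φ.apply_symm_apply]

include hWE in
/-- **The dichotomy at a prime of good reduction** (place `padicPlace p`). -/
theorem dich (hns : NonScalar E p) (hpΔ : ¬ (p : ℤ) ∣ W.Δ) (hp2 : p ≠ 2) :
    (∃ N : AddSubgroup (Submodule.torsionBy ℤ (E⁄Qb).Point (p : ℤ)), N ≠ ⊤ ∧
      ∀ s ∈ (padicPlace p).inertiaSubgroupIn ℚ, ∀ v, s • v - v ∈ N) ∨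
    ∀ {ζ : Qb}, ζ ^ p = 1 →
      ∃ s ∈ (padicPlace p).inertiaSubgroupIn ℚ, ∃ s' ∈ (padicPlace p).inertiaSubgroupIn ℚ,
        ∃ (k : ℕ) (v : Submodule.torsionBy ℤ (E⁄Qb).Point (p : ℤ)), s' ζ = ζ ^ k ∧
          s' • (s • v - v) ≠ k • (s • v - v) := by
  haveI := setting_padic (p := p) hp2
  rcases ord_or_ss E p hWE hns hpΔ hp2 with ⟨D, hD⟩ | h
  · exact Or.inl (exists_line E p hp2 D hD)
  · exact Or.inr h

end Good

/-- **The dichotomy at a prime of good reduction**, for a Weierstrass equation over `ℤ`. -/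
theorem dich_int (W : WeierstrassCurve ℤ) {p : ℕ} [hp : Fact p.Prime]
    (hell : (W.map (Int.castRingHom ℚ)).IsElliptic)
    (hirr : Affine.Point.GaloisRepIsIrreducible (K := Qb) ℚ (W.map (Int.castRingHom ℚ)) p)
    (hpΔ : ¬ (p : ℤ) ∣ W.Δ) (hp2 : p ≠ 2) :
    (∃ N : AddSubgroup (Submodule.torsionBy ℤ ((W.map (Int.castRingHom ℚ))⁄Qb).Point (p : ℤ)),
      N ≠ ⊤ ∧ ∀ s ∈ (padicPlace p).inertiaSubgroupIn ℚ, ∀ v, s • v - v ∈ N) ∨
    ∀ {ζ : Qb}, ζ ^ p = 1 →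
      ∃ s ∈ (padicPlace p).inertiaSubgroupIn ℚ, ∃ s' ∈ (padicPlace p).inertiaSubgroupIn ℚ,
        ∃ (k : ℕ) (v : Submodule.torsionBy ℤ ((W.map (Int.castRingHom ℚ))⁄Qb).Point (p : ℤ)),
          s' ζ = ζ ^ k ∧ s' • (s • v - v) ≠ k • (s • v - v) :=
  dich (W.map (Int.castRingHom ℚ)) p (W := W) ⟨1, by simp⟩
    (nonScalar_of_irreducible (W.map (Int.castRingHom ℚ)) p hirr) hpΔ hp2

end Fermat.Agent.LS27
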