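import Fermat.Agent.SL1.Loc

/-!
# Connected flat representations are irreducible on inertia
-/

set_option autoImplicit false
set_option linter.unusedSectionVars false
set_option linter.style.haveILetI false

noncomputable section

namespace Fermat.Agent.LS27

open Fermat.Agent.Flat Fermat.Agent.SL1 Matrix

variable {p : ℕ} [hp : Fact p.Prime] {Ω : Type} [NormedField Ω] [hU : IsUltrametricDist Ω]
variable {Γ : Type} [Group Γ] [MulSemiringAction Γ Ω] {I : Subgroup Γ} [S : Setting p Ω I]
  {r : Γ →* Matrix (Fin 2) (Fin 2) (ZMod p)}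

theorem exists_smul_of_det_zero {x d : Fin 2 → ZMod p} (hx : x ≠ 0)
    (h : x 0 * d 1 - x 1 * d 0 = 0) : ∃ t : ZMod p, d = t • x := by
  by_cases h0 : x 0 = 0
  · have h1 : x 1 ≠ 0 := by
      intro h1
      apply hx
      funext i
      fin_cases i
      · exact h0
      · exact h1
    refine ⟨d 1 / x 1, ?_⟩
    rw [h0, zero_mul, zero_sub, neg_eq_zero] at h
    have h2 := (mul_eq_zero.mp h).resolve_left h1
    funext i
    fin_cases i
    · show d 0 = d 1 / x 1 * x 0
      rw [h0, mul_zero, h2]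
    · show d 1 = d 1 / x 1 * x 1
      rw [div_mul_cancel₀ _ h1]
  · refine ⟨d 0 / x 0, ?_⟩
    funext i
    fin_cases i
    · show d 0 = d 0 / x 0 * x 0
      rw [div_mul_cancel₀ _ h0]
    · show d 1 = d 0 / x 0 * x 1
      rw [div_mul_eq_mul_div, eq_div_iff h0]
      linear_combination h

/-- **A connected flat representation of dimension two with cyclotomic determinant is irreducible
on inertia.** -/
theorem irr_of_conn_top (hdet : ∀ γ, (r γ).det = eps p Ω I γ)
    (D : Ord p Ω I (fun s => vAct r s.1)) (htop : D.conn = ⊤)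
    (N : AddSubgroup (Fin 2 → ZMod p)) (hN : ∀ σ ∈ I, ∀ x ∈ N, r σ *ᵥ x ∈ N) :
    N = ⊥ ∨ N = ⊤ := by
  by_contra hcon
  push Not at hcon
  obtain ⟨hbot, hne⟩ := hcon
  have hcard : Nat.card N = p := by
    have h1 : Nat.card N ∣ p ^ 2 := by
      rw [← card_vec (p := p)]
      exact AddSubgroup.card_addSubgroup_dvd_card N
    obtain ⟨i, hi, h2⟩ := (Nat.dvd_prime_pow hp.out).mp h1
    interval_cases i
    · exfalso
      apply hbot
      rw [pow_zero] at h2
      exact AddSubgroup.eq_bot_of_card_eq N h2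
    · rw [h2, pow_one]
    · exfalso
      apply hne
      apply AddSubgroup.eq_top_of_card_eq
      rw [h2, card_vec]
  have hact : IsAct (fun s : I => vAct r s.1) := (isAct_vAct r).rI I
  let ρN : I → N → N := fun σ x => ⟨r σ.1 *ᵥ x.1, hN σ.1 σ.2 x.1 x.2⟩
  have he : ∀ σ x, N.subtype (ρN σ x) = vAct r σ.1 (N.subtype x) := fun _ _ => rfl
  have hactN : IsAct ρN := hact.of_injective N.subtype N.subtype_injective he
  let DN : Ord p Ω I ρN := D.restrict N.subtype N.subtype_injective he
  obtain ⟨x, hx, hx0⟩ : ∃ x ∈ N, x ≠ 0 := by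
    by_contra hcon
    push Not at hcon
    apply hbot
    rw [eq_bot_iff]
    intro x hx
    exact hcon x hx
  have hω : ∀ σ : I, r σ.1 *ᵥ x = (omega p Ω I σ) • x := by
    rcases rank_one_char hactN hcard DN with h | h
    · exfalso
      apply hx0
      apply D.eq_zero_of_fixed hact (n := 1) (fun z => nsmul_p_vec1 z)
        (by rw [htop]; trivial)
      intro τ
      exact congrArg Subtype.val (h τ ⟨x, hx⟩)
    · intro σ
      have h2 := congrArg Subtype.val (h σ ⟨x, hx⟩)
      refine h2.trans ?_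
      show (omega p Ω I σ).val • x = _
      funext i
      rw [Pi.smul_apply, Pi.smul_apply, nsmul_eq_mul, ZMod.natCast_zmod_val, smul_eq_mul]
  -- inertia acts trivially on the quotient
  have hle : D.conn ≤ N := by
    apply D.conn_le hact (n := 1) (fun z => nsmul_p_vec1 z)
    intro σ y
    show r σ.1 *ᵥ y - y ∈ N
    have h1 := hω σ
    have h10 := congrFun h1 0
    have h11 := congrFun h1 1
    simp only [Matrix.mulVec, dotProduct, Fin.sum_univ_two, Pi.smul_apply, smul_eq_mul] at h10 h11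
    have h2 := hdet σ.1
    rw [eps_eq_omega, det_fin_two] at h2
    have h3 := omega_ne_zero (p := p) (Ω := Ω) σ
    obtain ⟨t, ht⟩ := exists_smul_of_det_zero (x := x) (d := r σ.1 *ᵥ y - y) hx0 (by
      apply mul_left_cancel₀ h3
      simp only [Pi.sub_apply, Matrix.mulVec, dotProduct, Fin.sum_univ_two]
      linear_combination -(r σ.1 1 0 * y 0 + r σ.1 1 1 * y 1) * h10 +
        (r σ.1 0 0 * y 0 + r σ.1 0 1 * y 1) * h11 + (x 0 * y 1 - x 1 * y 0) * h2)
    rw [ht]
    have h4 : t • x = t.val • x := by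
      funext i
      rw [Pi.smul_apply, Pi.smul_apply, nsmul_eq_mul, ZMod.natCast_zmod_val, smul_eq_mul]
    rw [h4]
    exact N.nsmul_mem hx _
  rw [htop] at hle
  exact hne (eq_top_iff.mpr hle)

/-- the supersingular case: inertia does not act through characters on `(s - 1) v`. -/
theorem exists_not_char (hdet : ∀ γ, (r γ).det = eps p Ω I γ)
    (hirr : ∀ N : AddSubgroup (Fin 2 → ZMod p), (∀ σ ∈ I, ∀ x ∈ N, r σ *ᵥ x ∈ N) →
      N = ⊥ ∨ N = ⊤) :
    ∃ (σ σ' : I) (v : Fin 2 → ZMod p),
      r σ'.1 *ᵥ (r σ.1 *ᵥ v - v) ≠ (eps p Ω I σ'.1).val • (r σ.1 *ᵥ v - v) := by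
  by_contra hcon
  push Not at hcon
  obtain ⟨σ₀, hσ₀⟩ := exists_omega_ne_one p Ω I
  obtain ⟨v, hv⟩ : ∃ v : Fin 2 → ZMod p, r σ₀.1 *ᵥ v - v ≠ 0 := by
    by_contra h
    push Not at h
    apply hσ₀
    have h1 : r σ₀.1 = 1 := by
      apply Matrix.ext_of_mulVec_single
      intro i
      rw [one_mulVec]
      exact sub_eq_zero.mp (h _)
    have h2 := hdet σ₀.1
    rw [h1, det_one, eps_eq_omega] at h2
    exact h2.symm
  set e := r σ₀.1 *ᵥ v - v with he
  have hcard : Nat.card (AddSubgroup.zmultiples e) ∣ p := by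
    rw [Nat.card_zmultiples]
    apply addOrderOf_dvd_of_nsmul_eq_zero
    have := nsmul_p_vec1 (p := p) (k := ZMod p) e
    rwa [pow_one] at this
  rcases hirr (AddSubgroup.zmultiples e) (fun σ hσ x hx => by
    obtain ⟨n, rfl⟩ := AddSubgroup.mem_zmultiples_iff.mp hx
    have h1 : r σ *ᵥ (n • e) = n • (r σ *ᵥ e) := by
      have := map_zsmul ((r σ).mulVecLin) n e
      simpa only [Matrix.mulVecLin_apply] using this
    rw [h1, hcon σ₀ ⟨σ, hσ⟩ v]
    exact AddSubgroup.zsmul_mem _ (AddSubgroup.nsmul_mem _ (AddSubgroup.mem_zmultiples e) _) _)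
    with h | h
  · apply hv
    rwa [AddSubgroup.zmultiples_eq_bot] at h
  · rw [h, AddSubgroup.card_top, card_vec] at hcard
    have h1 := Nat.le_of_dvd hp.out.pos hcard
    have h2 := hp.out.two_le
    nlinarith

end Fermat.Agent.LS27
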