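import Fermat.Agent.RTE.Mat

/-!
# The matrix form of the Galois module `E[p]`
-/

set_option autoImplicit false

namespace Fermat.Agent.LS27

open WeierstrassCurve WeierstrassCurve.Affine
open Fermat.Agent.ERep Fermat.Agent.Tate Fermat.Agent.RTE
open Matrix

variable (E : WeierstrassCurve ℚ) [E.IsElliptic] (p : ℕ) [hp : Fact p.Prime]

/-- `E[p]` in matrix form -/
theorem exists_tors_equiv : ∃ Φ : (Fin 2 → ZMod p) ≃+
    Submodule.torsionBy ℤ (E⁄Qb).Point (p : ℤ), ∀ (s : GQ) (v : Fin 2 → ZMod p),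
      Φ (modE E p s *ᵥ v) = s • Φ v := by
  have hmem : ∀ u : Fin 2 → ℤ_[p], ((tb E p).pr 1 u : (E⁄Qb).Point) ∈
      Submodule.torsionBy ℤ (E⁄Qb).Point (p : ℤ) := fun u =>
    (tor_one_iff E p).mpr ((tb E p).pr 1 u).2
  choose L hL using redV_surjective p
  have hadd : ∀ x y : Fin 2 → ℤ_[p], redV p (x + y) = redV p x + redV p y := by
    intro x y
    funext i
    simp [redV]
  let G : (Fin 2 → ℤ_[p]) → Submodule.torsionBy ℤ (E⁄Qb).Point (p : ℤ) := fun u =>
    ⟨(tb E p).pr 1 u, hmem u⟩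
  have hG : ∀ x y, G x = G y ↔ redV p x = redV p y := by
    intro x y
    rw [← pr_one_eq_iff E p]
    constructor
    · intro h
      have h1 : ((tb E p).pr 1 x : (E⁄Qb).Point) = ((tb E p).pr 1 y : (E⁄Qb).Point) :=
        congrArg (fun z : Submodule.torsionBy ℤ (E⁄Qb).Point (p : ℤ) => (z : (E⁄Qb).Point)) h
      exact Subtype.ext h1
    · intro h
      apply Subtype.ext
      show ((tb E p).pr 1 x : (E⁄Qb).Point) = ((tb E p).pr 1 y : (E⁄Qb).Point)
      rw [h]
  have hGadd : ∀ x y, G (x + y) = G x + G y := by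
    intro x y
    apply Subtype.ext
    show ((tb E p).pr 1 (x + y) : (E⁄Qb).Point) = ((tb E p).pr 1 x : (E⁄Qb).Point) +
      ((tb E p).pr 1 y : (E⁄Qb).Point)
    rw [map_add]
    rfl
  have hbij : Function.Bijective (fun w => G (L w)) := by
    constructor
    · intro x y hxy
      have h := (hG _ _).mp hxy
      rwa [hL, hL] at h
    · intro y
      obtain ⟨u, hu⟩ := (tb E p).pr_surjective 1 ⟨y.1, (tor_one_iff E p).mp y.2⟩
      refine ⟨redV p u, ?_⟩
      have h1 : G (L (redV p u)) = G u := (hG _ _).mpr (hL _)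
      show G (L (redV p u)) = y
      rw [h1]
      apply Subtype.ext
      show ((tb E p).pr 1 u : (E⁄Qb).Point) = y.1
      rw [hu]
  refine ⟨AddEquiv.ofBijective (AddMonoidHom.mk' (fun w => G (L w)) fun x y => ?_) hbij, ?_⟩
  · rw [← hGadd, hG, hadd, hL, hL, hL]
  · intro s v
    show G (L (modE E p s *ᵥ v)) = s • G (L v)
    have h1 : G (L (modE E p s *ᵥ v)) = G (repE E p s (L v)) := by
      rw [hG, hL, ← modE_mulVec, hL]
    rw [h1]
    apply Subtype.ext
    show ((tb E p).pr 1 (repE E p s (L v)) : (E⁄Qb).Point) = s • ((tb E p).pr 1 (L v) :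
      (E⁄Qb).Point)
    exact pr_repE E p s 1 (L v)

end Fermat.Agent.LS27
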