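import Fermat.Agent.LS27.Loc
import Fermat.Agent.LS27.Tors
import Fermat.Agent.SL1.Good

/-!
# S39/S40, block [LS]: good reduction at `p`, the connected (supersingular) case
-/

set_option autoImplicit false
set_option linter.style.haveILetI false

namespace Fermat.Agent.LS27

open WeierstrassCurve WeierstrassCurve.Affine
open Fermat.Agent.ERep Fermat.Agent.Tate Fermat.Agent.RTE
open Fermat.Agent.Flat Fermat.Agent.Flat.Loc
open Matrix

/-- the image of the local inertia group -/
theorem ltg_mem_inertia {p : ℕ} [hp : Fact p.Prime] {γ : GP p} (hγ : γ ∈ inert p) :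
    localGaloisToGlobal p γ ∈ (padicPlace p).inertiaSubgroupIn ℚ := by
  rw [TWP.mem_inertia_iff]
  refine ⟨localGaloisToGlobal_mem_decompositionSubgroup p γ, fun x hx => ?_⟩
  rw [CFT6.mem_nonunits_padic, map_sub, padicEmbedding_localGaloisToGlobal]
  rw [mem_padicPlace_iff] at hx
  exact hγ _ hx

section Good

variable (E : WeierstrassCurve ℚ) [E.IsElliptic] (p : ℕ) [hp : Fact p.Prime]
  {W : WeierstrassCurve ℤ} (hWE : W.IsIntegralModelOf E)

/-- the local representation on `E[p]` -/
noncomputable def locE : GP p →* Matrix (Fin 2) (Fin 2) (ZMod p) :=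
  (modE E p).comp (localGaloisToGlobal p)

theorem locE_apply (γ : GP p) : locE E p γ = modE E p (localGaloisToGlobal p γ) := rfl

include hWE in
/-- the determinant of the local representation -/
theorem det_locE (hns : NonScalar E p) (hp2 : p ≠ 2) (γ : GP p) :
    haveI := setting_padic (p := p) hp2
    (locE E p γ).det = eps p (PadicAlgCl p) (inert p) γ := by
  haveI := setting_padic (p := p) hp2
  rw [locE_apply, det_modE E p hWE hns _ _ (fun μ hμ => ltg_root hp2 γ μ hμ),
      ZMod.natCast_zmod_val]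

include hWE in
/-- **[LS]** If the flat local representation on `E[p]` is connected, inertia does not act through
the cyclotomic character on all the elements `(s - 1) v`. -/
theorem ss_exists (hns : NonScalar E p) (hp2 : p ≠ 2) :
    haveI := setting_padic (p := p) hp2
    ∀ D : Ord p (PadicAlgCl p) (inert p) (fun s => vAct (locE E p) s.1), D.conn = ⊤ →
    ∀ {ζ : Qb}, ζ ^ p = 1 →
    ∃ s ∈ (padicPlace p).inertiaSubgroupIn ℚ, ∃ s' ∈ (padicPlace p).inertiaSubgroupIn ℚ,
      ∃ (k : ℕ) (v : Submodule.torsionBy ℤ (E⁄Qb).Point (p : ℤ)), s' ζ = ζ ^ k ∧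
        s' • (s • v - v) ≠ k • (s • v - v) := by
  haveI := setting_padic (p := p) hp2
  intro D htop ζ hζ
  have hdet := det_locE E p hWE hns hp2
  obtain ⟨σ, σ', v, hv⟩ := exists_not_char hdet
    (fun N hN => irr_of_conn_top hdet D htop N hN)
  obtain ⟨Φ, hΦ⟩ := exists_tors_equiv E p
  refine ⟨_, ltg_mem_inertia σ.2, _, ltg_mem_inertia σ'.2,
    (eps p (PadicAlgCl p) (inert p) σ'.1).val, Φ v, ltg_root hp2 σ'.1 ζ hζ, fun h => hv ?_⟩
  apply Φ.injective
  rw [map_nsmul, map_sub, locE_apply, hΦ, map_sub, locE_apply, hΦ]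
  exact h

include hWE in
/-- **[LS]**, all cases of good reduction: either the local representation is ordinary (not
connected), or inertia does not act through the cyclotomic character on all `(s - 1) v`. -/
theorem ord_or_ss (hns : NonScalar E p) (hpΔ : ¬ (p : ℤ) ∣ W.Δ) (hp2 : p ≠ 2) :
    haveI := setting_padic (p := p) hp2
    (∃ D : Ord p (PadicAlgCl p) (inert p) (fun s => vAct (locE E p) s.1), D.conn ≠ ⊤) ∨
    ∀ {ζ : Qb}, ζ ^ p = 1 →
      ∃ s ∈ (padicPlace p).inertiaSubgroupIn ℚ, ∃ s' ∈ (padicPlace p).inertiaSubgroupIn ℚ,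
        ∃ (k : ℕ) (v : Submodule.torsionBy ℤ (E⁄Qb).Point (p : ℤ)), s' ζ = ζ ^ k ∧
          s' • (s • v - v) ≠ k • (s • v - v) := by
  haveI := setting_padic (p := p) hp2
  obtain ⟨D⟩ := SL1.exists_ord_modE E p hWE hpΔ hp2
  by_cases htop : D.conn = ⊤
  · exact Or.inr fun hζ => ss_exists E p hWE hns hp2 D htop hζ
  · exact Or.inl ⟨D, htop⟩

end Good

end Fermat.Agent.LS27
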